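/-
G1 (Frobenius density), file E: the abstract counting argument.

`G` a finite group, `a H l`, `A D l` natural numbers indexed by subgroups and prime numbers with
* `∑_l a H l * l ^ (-s) = -log (s - 1) + O(1)` as `s → 1⁺` for every `H`;
* `|H| * a H l = ∑_{D ≤ H} |D| * A D l` for all `l` outside a finite set `S`.
Then for every `σ : G` there is `l ∉ S` with `A (zpowers σ) l ≠ 0` (`dn_exists_prime`).
-/
import Mathlib

set_option autoImplicit false
set_option linter.style.haveILetI false
set_option linter.unusedSectionVars false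

open Filter Topology

namespace Fermat.Agent.FrobDensity

/-- `∑_{l ∉ S} f l * l ^ (-s)` -/
noncomputable def dnSum (S : Finset Nat.Primes) (f : Nat.Primes → ℝ) (s : ℝ) : ℝ :=
  ∑' l : ↥((S : Set Nat.Primes)ᶜ), f l * (((l : Nat.Primes) : ℕ) : ℝ) ^ (-s)

lemma dn_rpow_le_one (l : Nat.Primes) {s : ℝ} (hs : 0 ≤ s) : (((l : ℕ) : ℝ)) ^ (-s) ≤ 1 := by
  have h1 : (1 : ℝ) ≤ ((l : ℕ) : ℝ) := by exact_mod_cast l.2.one_lt.le
  exact Real.rpow_le_one_of_one_le_of_nonpos h1 (by linarith)

lemma dn_rpow_nonneg (l : Nat.Primes) (s : ℝ) : 0 ≤ (((l : ℕ) : ℝ)) ^ (-s) :=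
  Real.rpow_nonneg (Nat.cast_nonneg _) _

/-- removing finitely many primes changes the sum by `O(1)` -/
lemma dn_isBigO_of_full (S : Finset Nat.Primes) (f : Nat.Primes → ℝ)
    (hsum : ∀ {s : ℝ}, 1 < s → Summable fun l : Nat.Primes => f l * ((l : ℕ) : ℝ) ^ (-s))
    (hO : (fun s : ℝ => (∑' l : Nat.Primes, f l * ((l : ℕ) : ℝ) ^ (-s)) + Real.log (s - 1))
      =O[𝓝[>] 1] (fun _ => (1 : ℝ))) :
    (fun s : ℝ => dnSum S f s + Real.log (s - 1)) =O[𝓝[>] 1] (fun _ => (1 : ℝ)) := by
  have hbd : (fun s : ℝ => ∑ l ∈ S, f l * ((l : ℕ) : ℝ) ^ (-s)) =O[𝓝[>] 1]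
      (fun _ => (1 : ℝ)) := by
    refine Asymptotics.IsBigO.of_bound (∑ l ∈ S, |f l|) ?_
    filter_upwards [self_mem_nhdsWithin] with s hs
    have hs1 : (1 : ℝ) < s := hs
    rw [norm_one, mul_one, Real.norm_eq_abs]
    refine (Finset.abs_sum_le_sum_abs _ _).trans (Finset.sum_le_sum fun l _ => ?_)
    rw [abs_mul, abs_of_nonneg (dn_rpow_nonneg l s)]
    exact mul_le_of_le_one_right (abs_nonneg _) (dn_rpow_le_one l (by linarith))
  refine (hO.sub hbd).congr' ?_ EventuallyEq.rfl
  filter_upwards [self_mem_nhdsWithin] with s hs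
  have hs1 : (1 : ℝ) < s := hs
  have := (hsum hs1).sum_add_tsum_compl (s := S)
  rw [dnSum]
  linarith

section Group

variable {G : Type*} [Group G] [Finite G]

/-- the number of generators of a subgroup -/
noncomputable def genCount (D : Subgroup G) : ℕ := Nat.card {g : G // Subgroup.zpowers g = D}

lemma genCount_zpowers_pos (σ : G) : 0 < genCount (Subgroup.zpowers σ) := by
  haveI : Nonempty {g : G // Subgroup.zpowers g = Subgroup.zpowers σ} := ⟨⟨σ, rfl⟩⟩
  exact Nat.card_pos

open Classical in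
lemma sum_genCount_le [Fintype (Subgroup G)] (H : Subgroup G) :
    ∑ D ∈ Finset.univ.filter (fun D : Subgroup G => D ≤ H), genCount D = Nat.card H := by
  haveI : Fintype G := Fintype.ofFinite G
  have h1 : Nat.card H = (Finset.univ.filter (fun g : G => g ∈ H)).card := by
    rw [Nat.card_eq_fintype_card, Fintype.card_subtype]
  rw [h1, Finset.card_eq_sum_card_fiberwise (f := fun g : G => Subgroup.zpowers g)
    (t := Finset.univ.filter (fun D : Subgroup G => D ≤ H))]
  · refine Finset.sum_congr rfl fun D hD => ?_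
    rw [Finset.mem_filter] at hD
    rw [genCount, Nat.card_eq_fintype_card, Fintype.card_subtype]
    congr 1
    ext g
    simp only [Finset.mem_filter, Finset.mem_univ, true_and]
    constructor
    · intro h; exact ⟨hD.2 (h ▸ Subgroup.mem_zpowers g), h⟩
    · intro h; exact h.2
  · intro g hg
    rw [Finset.mem_coe, Finset.mem_filter] at hg ⊢
    exact ⟨Finset.mem_univ _, (Subgroup.zpowers_le).mpr hg.2⟩

end Group

lemma dn_tendsto_log : Tendsto (fun s : ℝ => Real.log (s - 1)) (𝓝[>] 1) atBot := by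
  refine Real.tendsto_log_nhdsGT_zero.comp ?_
  refine tendsto_nhdsWithin_of_tendsto_nhds_of_eventually_within _ ?_ ?_
  · exact ((continuous_id.sub continuous_const).tendsto' (1 : ℝ) 0 (by simp)).mono_left
      nhdsWithin_le_nhds
  · filter_upwards [self_mem_nhdsWithin] with s hs
    have hs1 : (1 : ℝ) < s := hs
    exact Set.mem_Ioi.mpr (by linarith)

lemma dn_not_isBigO_log {c : ℝ} (hc : 0 < c) :
    ¬ (fun s : ℝ => c * Real.log (s - 1)) =O[𝓝[>] 1] (fun _ => (1 : ℝ)) := by
  intro h
  obtain ⟨C, hC⟩ := h.bound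
  have h2 := dn_tendsto_log.eventually (eventually_lt_atBot (-(C / c) - 1))
  obtain ⟨s, hs1, hs2⟩ := (hC.and h2).exists
  rw [norm_one, mul_one, Real.norm_eq_abs, abs_mul, abs_of_pos hc] at hs1
  have h3 : C / c + 1 < |Real.log (s - 1)| := by
    rw [abs_of_neg (by
      have : (0:ℝ) ≤ |c * Real.log (s-1)| := abs_nonneg _
      by_contra hcon
      rw [not_lt] at hcon
      have hCc : 0 ≤ C / c := by
        have : 0 ≤ C := le_trans (mul_nonneg hc.le (abs_nonneg _)) hs1
        positivity
      linarith)]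
    linarith
  have h4 : c * (C / c + 1) < c * |Real.log (s - 1)| := mul_lt_mul_of_pos_left h3 hc
  have h5 : c * (C / c + 1) = C + c := by field_simp
  linarith

section Main

open Classical

variable {G : Type*} [Group G] [Finite G] [Fintype (Subgroup G)]
  (a A : Subgroup G → Nat.Primes → ℕ) (S : Finset Nat.Primes)
  (haS : ∀ (H : Subgroup G) {s : ℝ}, 1 < s →
    Summable fun l : Nat.Primes => (a H l : ℝ) * ((l : ℕ) : ℝ) ^ (-s))
  (haO : ∀ H : Subgroup G,
    (fun s : ℝ => (∑' l : Nat.Primes, (a H l : ℝ) * ((l : ℕ) : ℝ) ^ (-s)) + Real.log (s - 1))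
      =O[𝓝[>] 1] fun _ => (1 : ℝ))
  (hid : ∀ (H : Subgroup G) (l : Nat.Primes), l ∉ S →
    Nat.card H * a H l =
      ∑ D ∈ Finset.univ.filter (fun D : Subgroup G => D ≤ H), Nat.card D * A D l)

omit [Finite G] [Fintype (Subgroup G)] in
lemma dn_notMem (l : ↥((S : Set Nat.Primes)ᶜ)) : (l : Nat.Primes) ∉ S :=
  fun h => l.2 (Finset.mem_coe.mpr h)

include hid in
lemma dn_A_le (D : Subgroup G) (l : Nat.Primes) (hl : l ∉ S) : A D l ≤ a D l := by
  have h := hid D l hl
  have hmem : D ∈ Finset.univ.filter (fun D' : Subgroup G => D' ≤ D) := by simp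
  have h2 : Nat.card D * A D l ≤ Nat.card D * a D l := by
    rw [h]
    exact Finset.single_le_sum (f := fun D' : Subgroup G => Nat.card D' * A D' l)
      (fun _ _ => Nat.zero_le _) hmem
  exact Nat.le_of_mul_le_mul_left h2 Nat.card_pos

include haS hid in
lemma dn_summable_A (D : Subgroup G) {s : ℝ} (hs : 1 < s) :
    Summable fun l : ↥((S : Set Nat.Primes)ᶜ) =>
      (A D l : ℝ) * (((l : Nat.Primes) : ℕ) : ℝ) ^ (-s) := by
  refine Summable.of_nonneg_of_le (fun l => mul_nonneg (Nat.cast_nonneg _) (dn_rpow_nonneg _ _))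
    (fun l => ?_) ((haS D hs).subtype _)
  refine mul_le_mul_of_nonneg_right ?_ (dn_rpow_nonneg _ _)
  exact_mod_cast dn_A_le a A S hid D l (dn_notMem S l)

include haS hid in
lemma dn_key (H : Subgroup G) {s : ℝ} (hs : 1 < s) :
    (Nat.card H : ℝ) * dnSum S (fun l => (a H l : ℝ)) s =
      ∑ D ∈ Finset.univ.filter (fun D : Subgroup G => D ≤ H),
        (Nat.card D : ℝ) * dnSum S (fun l => (A D l : ℝ)) s := by
  simp only [dnSum]
  rw [← tsum_mul_left]
  simp_rw [← tsum_mul_left]
  rw [← Summable.tsum_finsetSum fun D _ => (dn_summable_A a A S haS hid D hs).mul_left _]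
  refine tsum_congr fun l => ?_
  have h := hid H l (dn_notMem S l)
  have h' : (Nat.card H : ℝ) * (a H l : ℝ) =
      ∑ D ∈ Finset.univ.filter (fun D : Subgroup G => D ≤ H), (Nat.card D : ℝ) * (A D l : ℝ) := by
    exact_mod_cast h
  rw [← mul_assoc, h', Finset.sum_mul]
  refine Finset.sum_congr rfl fun D _ => ?_
  ring

lemma dn_filter_le (H : Subgroup G) :
    Finset.univ.filter (fun D : Subgroup G => D ≤ H) =
      insert H (Finset.univ.filter (fun D : Subgroup G => D < H)) := by
  ext D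
  simp only [Finset.mem_filter, Finset.mem_univ, true_and, Finset.mem_insert]
  exact le_iff_eq_or_lt

include haS haO hid in
theorem dn_isBigO (H : Subgroup G) :
    (fun s : ℝ => (Nat.card H : ℝ) * dnSum S (fun l => (A H l : ℝ)) s +
      (genCount H : ℝ) * Real.log (s - 1)) =O[𝓝[>] 1] fun _ => (1 : ℝ) := by
  induction H using WellFoundedLT.induction with
  | ind H ih =>
    have h1 := (dn_isBigO_of_full S (fun l => (a H l : ℝ)) (haS H) (haO H)).const_mul_left
      (Nat.card H : ℝ)
    have h2 := Asymptotics.IsBigO.sum (s := Finset.univ.filter (fun D : Subgroup G => D < H))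
      fun D hD => ih D (Finset.mem_filter.mp hD).2
    refine (h1.sub h2).congr' ?_ EventuallyEq.rfl
    filter_upwards [self_mem_nhdsWithin] with s hs
    have hs1 : (1 : ℝ) < s := hs
    have hk := dn_key a A S haS hid H hs1
    have hg := sum_genCount_le H
    rw [dn_filter_le, Finset.sum_insert (by simp)] at hk hg
    have hg' : (genCount H : ℝ) + ∑ D ∈ Finset.univ.filter (fun D : Subgroup G => D < H),
        (genCount D : ℝ) = (Nat.card H : ℝ) := by exact_mod_cast hg
    rw [Finset.sum_apply]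
    simp only [Finset.sum_add_distrib, ← Finset.sum_mul]
    rw [mul_add, hk]
    rw [← hg']
    ring

include haS haO hid in
/-- **the abstract Frobenius density argument** -/
theorem dn_exists_prime (σ : G) :
    ∃ l : Nat.Primes, l ∉ S ∧ A (Subgroup.zpowers σ) l ≠ 0 := by
  by_contra hcon
  push Not at hcon
  have h := dn_isBigO a A S haS haO hid (Subgroup.zpowers σ)
  have hz : ∀ s : ℝ, dnSum S (fun l => (A (Subgroup.zpowers σ) l : ℝ)) s = 0 := by
    intro s
    rw [dnSum]
    convert tsum_zero with l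
    rw [hcon l (dn_notMem S l), Nat.cast_zero, zero_mul]
  simp only [hz, mul_zero, zero_add] at h
  exact dn_not_isBigO_log (Nat.cast_pos.mpr (genCount_zpowers_pos σ)) h

end Main

end Fermat.Agent.FrobDensity
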