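/-
G1 (Frobenius density), file A: the Euler product over a free commutative monoid.

For `x : P → ℝ` with `0 ≤ x p ≤ 1/2` and `Summable x`:
`∑' v : P →₀ ℕ, ∏ p, x p ^ v p = exp (∑' p, -log (1 - x p))`, and
`|∑' p, -log (1 - x p) - ∑' p, x p| ≤ 2 * ∑' p, x p ^ 2`.
-/
import Mathlib

set_option autoImplicit false

open Finset Filter Topology

namespace Fermat.Agent.FrobDensity

section Real

/-- `0 ≤ -log (1 - x) - x ≤ 2 x²` for `0 ≤ x ≤ 1/2` -/
lemma fe_neg_log_one_sub_bounds {x : ℝ} (h0 : 0 ≤ x) (h1 : x ≤ 1 / 2) :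
    x ≤ -Real.log (1 - x) ∧ -Real.log (1 - x) ≤ x + 2 * x ^ 2 := by
  have hlt : |x| < 1 := by rw [abs_of_nonneg h0]; linarith
  constructor
  · have := Real.log_le_sub_one_of_pos (show (0 : ℝ) < 1 - x by linarith)
    linarith
  · have h := Real.abs_log_sub_add_sum_range_le hlt 1
    simp only [Finset.range_one, Finset.sum_singleton, zero_add, pow_one, Nat.cast_zero,
      div_one] at h
    rw [abs_of_nonneg h0] at h
    have h2 : x ^ (1 + 1) / (1 - x) ≤ 2 * x ^ 2 := by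
      rw [show (1 + 1 : ℕ) = 2 from rfl, div_le_iff₀ (by linarith)]
      have : 0 ≤ x ^ 2 := sq_nonneg x
      nlinarith [mul_nonneg this (show (0 : ℝ) ≤ 1 - 2 * x by linarith)]
    have h3 := (abs_le.mp h).1
    linarith

lemma fe_neg_log_one_sub_nonneg {x : ℝ} (h0 : 0 ≤ x) (h1 : x ≤ 1 / 2) :
    0 ≤ -Real.log (1 - x) := le_trans h0 (fe_neg_log_one_sub_bounds h0 h1).1

end Real

section Finsupp

variable {P : Type*} (x : P → ℝ)

/-- the monomial `∏ p, x p ^ v p` -/
noncomputable def feMonomial (v : P →₀ ℕ) : ℝ := v.prod fun q e => x q ^ e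

lemma feMonomial_nonneg (h0 : ∀ p, 0 ≤ x p) (v : P →₀ ℕ) : 0 ≤ feMonomial x v :=
  Finset.prod_nonneg fun p _ => pow_nonneg (h0 p) _

lemma feMonomial_eq_prod_of_subset {F : Finset P} {v : P →₀ ℕ} (h : v.support ⊆ F) :
    feMonomial x v = ∏ p ∈ F, x p ^ v p :=
  Finsupp.prod_of_support_subset v h _ fun _ _ => pow_zero _

/-- the finite box identity -/
lemma fe_sum_box (F : Finset P) (M : ℕ) :
    ∑ v ∈ F.finsupp (fun _ => Finset.range (M + 1)), feMonomial x v =
      ∏ p ∈ F, ∑ e ∈ Finset.range (M + 1), x p ^ e := by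
  classical
  rw [Finset.prod_sum, Finset.finsupp, Finset.sum_map]
  refine Finset.sum_congr rfl fun u hu => ?_
  have hsupp : (Finsupp.indicator F u).support ⊆ F := Finsupp.support_indicator_subset F u
  show feMonomial x (Finsupp.indicator F u) = _
  rw [feMonomial_eq_prod_of_subset x hsupp, ← Finset.prod_attach]
  refine Finset.prod_congr rfl fun a _ => ?_
  rw [Finsupp.indicator_of_mem a.2]

lemma fe_geom_le {y : ℝ} (h0 : 0 ≤ y) (h1 : y < 1) (M : ℕ) :
    ∑ e ∈ Finset.range (M + 1), y ^ e ≤ (1 - y)⁻¹ := by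
  have := (hasSum_geometric_of_lt_one h0 h1)
  exact sum_le_hasSum _ (fun i _ => pow_nonneg h0 i) this

omit x in
/-- every finite set of exponent vectors lies in a box -/
lemma fe_exists_box (U : Finset (P →₀ ℕ)) :
    ∃ (F : Finset P) (M : ℕ), U ⊆ F.finsupp (fun _ => Finset.range (M + 1)) := by
  classical
  refine ⟨U.biUnion Finsupp.support, U.sup fun v => v.support.sup v, fun v hv => ?_⟩
  rw [Finset.mem_finsupp_iff]
  refine ⟨Finset.subset_biUnion_of_mem Finsupp.support hv, fun p _ => ?_⟩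
  rw [Finset.mem_range, Nat.lt_succ_iff]
  by_cases hp : p ∈ v.support
  · exact le_trans (Finset.le_sup (f := v) hp) (Finset.le_sup (f := fun v => v.support.sup v) hv)
  · rw [Finsupp.notMem_support_iff.mp hp]; exact Nat.zero_le _

variable (h0 : ∀ p, 0 ≤ x p) (h1 : ∀ p, x p ≤ 1 / 2) (hs : Summable x)

include h0 h1 hs

lemma fe_summable_neg_log : Summable fun p => -Real.log (1 - x p) := by
  refine Summable.of_nonneg_of_le (fun p => fe_neg_log_one_sub_nonneg (h0 p) (h1 p))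
    (fun p => ?_) (hs.mul_left 2)
  have := (fe_neg_log_one_sub_bounds (h0 p) (h1 p)).2
  have hx : x p ^ 2 ≤ x p / 2 := by
    have := h1 p; have := h0 p; nlinarith
  linarith

omit h0 hs in
lemma fe_prod_inv_eq_exp (F : Finset P) :
    ∏ p ∈ F, (1 - x p)⁻¹ = Real.exp (∑ p ∈ F, -Real.log (1 - x p)) := by
  rw [Real.exp_sum]
  refine Finset.prod_congr rfl fun p _ => ?_
  rw [Real.exp_neg, Real.exp_log (by linarith [h1 p])]

lemma fe_prod_inv_le (F : Finset P) :
    ∏ p ∈ F, (1 - x p)⁻¹ ≤ Real.exp (∑' p, -Real.log (1 - x p)) := by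
  rw [fe_prod_inv_eq_exp x h1 F]
  exact Real.exp_le_exp.mpr ((fe_summable_neg_log x h0 h1 hs).sum_le_tsum F
    fun p _ => fe_neg_log_one_sub_nonneg (h0 p) (h1 p))

lemma fe_sum_le (U : Finset (P →₀ ℕ)) :
    ∑ v ∈ U, feMonomial x v ≤ Real.exp (∑' p, -Real.log (1 - x p)) := by
  classical
  obtain ⟨F, M, hU⟩ := fe_exists_box U
  calc ∑ v ∈ U, feMonomial x v
      ≤ ∑ v ∈ F.finsupp (fun _ => Finset.range (M + 1)), feMonomial x v :=
        Finset.sum_le_sum_of_subset_of_nonneg hU fun v _ _ => feMonomial_nonneg x h0 v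
    _ = ∏ p ∈ F, ∑ e ∈ Finset.range (M + 1), x p ^ e := fe_sum_box x F M
    _ ≤ ∏ p ∈ F, (1 - x p)⁻¹ :=
        Finset.prod_le_prod (fun p _ => Finset.sum_nonneg fun e _ => pow_nonneg (h0 p) e)
          fun p _ => fe_geom_le (h0 p) (by linarith [h1 p]) M
    _ ≤ _ := fe_prod_inv_le x h0 h1 hs F

theorem fe_summable_monomial : Summable (feMonomial x) :=
  summable_of_sum_le (feMonomial_nonneg x h0) (fe_sum_le x h0 h1 hs)

theorem fe_tsum_monomial :
    ∑' v, feMonomial x v = Real.exp (∑' p, -Real.log (1 - x p)) := by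
  have hsum := fe_summable_monomial x h0 h1 hs
  refine le_antisymm (hsum.tsum_le_of_sum_le (fe_sum_le x h0 h1 hs)) ?_
  -- lower bound
  have hbox : ∀ (F : Finset P) (M : ℕ),
      ∏ p ∈ F, ∑ e ∈ Finset.range (M + 1), x p ^ e ≤ ∑' v, feMonomial x v := by
    intro F M
    classical
    rw [← fe_sum_box]
    exact hsum.sum_le_tsum _ fun v _ => feMonomial_nonneg x h0 v
  have hF : ∀ F : Finset P, ∏ p ∈ F, (1 - x p)⁻¹ ≤ ∑' v, feMonomial x v := by
    intro F
    have hlim : Tendsto (fun M : ℕ => ∏ p ∈ F, ∑ e ∈ Finset.range (M + 1), x p ^ e) atTop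
        (𝓝 (∏ p ∈ F, (1 - x p)⁻¹)) := by
      refine tendsto_finsetProd F fun p _ => ?_
      have h := (hasSum_geometric_of_lt_one (h0 p) (by linarith [h1 p])).tendsto_sum_nat
      exact (tendsto_add_atTop_iff_nat 1).mpr h
    exact le_of_tendsto' hlim fun M => hbox F M
  have hlim2 : Tendsto (fun F : Finset P => Real.exp (∑ p ∈ F, -Real.log (1 - x p))) atTop
      (𝓝 (Real.exp (∑' p, -Real.log (1 - x p)))) :=
    (Real.continuous_exp.tendsto _).comp (fe_summable_neg_log x h0 h1 hs).hasSum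
  refine le_of_tendsto' hlim2 fun F => ?_
  rw [← fe_prod_inv_eq_exp x h1 F]
  exact hF F

/-- `∑ -log (1 - x p)` and `∑ x p` differ by at most `2 ∑ x p ^ 2` -/
theorem fe_abs_tsum_neg_log_sub_le :
    |∑' p, -Real.log (1 - x p) - ∑' p, x p| ≤ 2 * ∑' p, x p ^ 2 := by
  have hsq : Summable fun p => x p ^ 2 := by
    refine Summable.of_nonneg_of_le (fun p => sq_nonneg _) (fun p => ?_) hs
    have := h1 p; have := h0 p; nlinarith
  rw [← (fe_summable_neg_log x h0 h1 hs).tsum_sub hs, ← tsum_mul_left]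
  have hnn : ∀ p, 0 ≤ -Real.log (1 - x p) - x p := fun p => by
    linarith [(fe_neg_log_one_sub_bounds (h0 p) (h1 p)).1]
  rw [abs_of_nonneg (tsum_nonneg hnn)]
  refine Summable.tsum_le_tsum (fun p => ?_) ((fe_summable_neg_log x h0 h1 hs).sub hs)
    (hsq.mul_left 2)
  linarith [(fe_neg_log_one_sub_bounds (h0 p) (h1 p)).2]

end Finsupp

end Fermat.Agent.FrobDensity
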