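/-
G1 (Frobenius density), file B: unique factorisation of ideals of a Dedekind domain as an
equivalence `(HeightOneSpectrum R →₀ ℕ) ≃ {I : Ideal R // I ≠ ⊥}`, and the norm of a product.
-/
import Mathlib

set_option autoImplicit false

open IsDedekindDomain nonZeroDivisors

namespace Fermat.Agent.FrobDensity

variable {R : Type*} [CommRing R] [IsDedekindDomain R]

/-- the ideal `∏ p ^ v p` -/
noncomputable def ifProd (v : HeightOneSpectrum R →₀ ℕ) : Ideal R :=
  v.prod fun p k => p.asIdeal ^ k

lemma ifProd_ne_bot (v : HeightOneSpectrum R →₀ ℕ) : ifProd v ≠ ⊥ := by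
  rw [ifProd, Finsupp.prod, ← Ideal.zero_eq_bot, Finset.prod_ne_zero_iff]
  exact fun p _ => pow_ne_zero _ p.ne_bot

lemma ifProd_coe (v : HeightOneSpectrum R →₀ ℕ) :
    ((ifProd v : Ideal R) : FractionalIdeal R⁰ (FractionRing R)) =
      (v.mapRange (Nat.cast : ℕ → ℤ) rfl).prod
        (fun p k => ((p.asIdeal : Ideal R) : FractionalIdeal R⁰ (FractionRing R)) ^ k) := by
  rw [ifProd, Finsupp.prod_mapRange_index (fun _ => zpow_zero _), Finsupp.prod, Finsupp.prod,
    ← FractionalIdeal.coeIdealHom_apply, map_prod]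
  refine Finset.prod_congr rfl fun p _ => ?_
  rw [map_pow, zpow_natCast]
  rfl

lemma count_ifProd (v : HeightOneSpectrum R →₀ ℕ) (p : HeightOneSpectrum R) :
    ((Associates.mk p.asIdeal).count (Associates.mk (ifProd v)).factors : ℤ) = v p := by
  rw [← FractionalIdeal.count_coe (FractionRing R) p (ifProd_ne_bot v), ifProd_coe,
    FractionalIdeal.count_finsuppProd]
  rfl

lemma ifProd_injective : Function.Injective (ifProd : (HeightOneSpectrum R →₀ ℕ) → Ideal R) := by
  intro v w h
  ext p
  have h1 := count_ifProd v p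
  rw [h, count_ifProd w p] at h1
  exact_mod_cast h1.symm

lemma ifProd_surjective {I : Ideal R} (hI : I ≠ ⊥) : ∃ v, ifProd v = I := by
  classical
  have hfin : {p : HeightOneSpectrum R | p.asIdeal ∣ I}.Finite := Ideal.finite_factors hI
  have hsupp : (Function.support fun p : HeightOneSpectrum R =>
      (Associates.mk p.asIdeal).count (Associates.mk I).factors).Finite := by
    refine hfin.subset fun p hp => ?_
    rw [Function.mem_support] at hp
    rw [Set.mem_ofPred_eq]
    by_contra hnd
    apply hp
    rw [← Associates.mk_dvd_mk] at hnd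
    by_contra hne
    exact hnd (Associates.le_of_count_ne_zero (Associates.mk_ne_zero.mpr hI)
      p.associates_irreducible hne)
  refine ⟨Finsupp.ofSupportFinite _ hsupp, ?_⟩
  conv_rhs => rw [← Ideal.finprod_heightOneSpectrum_factorization hI]
  rw [ifProd, Finsupp.prod, finprod_eq_finsetProd_of_mulSupport_subset]
  · rfl
  · intro p hp
    rw [Function.mem_mulSupport] at hp
    simp only [Finset.mem_coe, Finsupp.mem_support_iff, Finsupp.ofSupportFinite_coe]
    intro h0
    apply hp
    rw [HeightOneSpectrum.maxPowDividing, h0, pow_zero]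

/-- unique factorisation of nonzero ideals -/
noncomputable def ifEquiv : (HeightOneSpectrum R →₀ ℕ) ≃ {I : Ideal R // I ≠ ⊥} :=
  Equiv.ofBijective (fun v => ⟨ifProd v, ifProd_ne_bot v⟩)
    ⟨fun v w h => ifProd_injective (congrArg Subtype.val h),
     fun I => by
      obtain ⟨v, hv⟩ := ifProd_surjective I.2
      exact ⟨v, Subtype.ext hv⟩⟩

@[simp] lemma ifEquiv_apply_coe (v : HeightOneSpectrum R →₀ ℕ) :
    ((ifEquiv v : {I : Ideal R // I ≠ ⊥}) : Ideal R) = ifProd v := rfl

lemma absNorm_ifProd [Module.Free ℤ R] [Module.Finite ℤ R]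
    (v : HeightOneSpectrum R →₀ ℕ) :
    Ideal.absNorm (ifProd v) = v.prod fun p k => Ideal.absNorm p.asIdeal ^ k := by
  rw [ifProd, Finsupp.prod, map_prod]
  exact Finset.prod_congr rfl fun p _ => map_pow _ _ _

end Fermat.Agent.FrobDensity
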