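/-
G1 (Frobenius density), file C: the prime ideals of degree one of a number field `K`.

`idealCount K n` is the number of integral ideals of `𝓞 K` of norm `n` (the coefficient of Mathlib's
`dedekindZeta`).  Main results, from the class number formula
`NumberField.tendsto_sub_one_mul_dedekindZeta_nhdsGT` and the Euler product:

* `zp_summable_primes` : `∑_l idealCount K l * l ^ (-s)` (over the prime numbers `l`) converges
  for `s > 1`;
* `zp_primes_isBigO` : `∑_l idealCount K l * l ^ (-s) + log (s - 1) = O(1)` as `s → 1⁺`.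
-/
import Fermat.Agent.Lib.FrobDensity.FinsuppEuler
import Fermat.Agent.Lib.FrobDensity.IdealFactor

set_option autoImplicit false
set_option linter.style.haveILetI false
set_option linter.unusedSectionVars false

open NumberField IsDedekindDomain Filter Topology Ideal

namespace Fermat.Agent.FrobDensity

variable (K : Type*) [Field K] [NumberField K]

/-- number of integral ideals of norm `n` -/
noncomputable def idealCount (n : ℕ) : ℕ := Nat.card {I : Ideal (𝓞 K) // Ideal.absNorm I = n}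

lemma zp_tendsto_sum_div :
    Tendsto (fun n : ℕ => (∑ k ∈ Finset.Icc 1 n, (idealCount K k : ℝ)) / n) atTop
      (𝓝 (dedekindZeta_residue K)) := by
  refine ((Ideal.tendsto_norm_le_div_atTop₀ K).comp tendsto_natCast_atTop_atTop).congr fun n ↦ ?_
  simp only [Function.comp_apply, Nat.cast_le, ← Nat.cast_sum, idealCount]
  congr
  rw [← add_left_inj 1, ← card_norm_le_eq_card_norm_le_add_one,
    show Finset.Icc 1 n = Finset.Ioc 0 n from Finset.Icc_succ_left_eq_Ioc _ _,
    show 1 = Nat.card {I : Ideal (𝓞 K) // absNorm I = 0} by simp [Ideal.absNorm_eq_zero_iff],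
    Finset.sum_Ioc_add_eq_sum_Icc (n.zero_le),
    ← Finset.card_preimage_eq_sum_card_image_eq (fun k _ ↦ finite_setOfPred_absNorm_eq k)]
  simp [Set.coe_eq_subtype]

lemma zp_lseriesSummable {s : ℂ} (hs : 1 < s.re) :
    LSeriesSummable (fun n => ((idealCount K n : ℝ) : ℂ)) s := by
  refine LSeriesSummable_of_sum_norm_bigO_and_nonneg (r := 1) ?_ (fun _ => Nat.cast_nonneg _)
    zero_le_one hs
  simp only [Real.rpow_one]
  refine Asymptotics.isBigO_of_div_tendsto_nhds ?_ _ (zp_tendsto_sum_div K)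
  filter_upwards [eventually_ne_atTop 0] with n hn h0
  exact absurd (by exact_mod_cast h0) hn

lemma zp_dedekindZeta_eq (s : ℂ) :
    dedekindZeta K s = LSeries (fun n => ((idealCount K n : ℝ) : ℂ)) s := by
  unfold dedekindZeta idealCount
  simp

/-- the real Dirichlet series -/
lemma zp_hasSum_nat {s : ℝ} (hs : 1 < s) :
    HasSum (fun n : ℕ => (idealCount K n : ℝ) * (n : ℝ) ^ (-s)) (dedekindZeta K s).re := by
  have h := (zp_lseriesSummable K (s := (s : ℂ)) (by simpa using hs)).LSeriesHasSum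
  rw [← zp_dedekindZeta_eq] at h
  have h2 := Complex.hasSum_re h
  refine h2.congr_fun fun n => ?_  -- maybe wrong direction
  rcases Nat.eq_zero_or_pos n with rfl | hn
  · rw [LSeries.term_zero, Complex.zero_re, Nat.cast_zero, Real.zero_rpow (by linarith), mul_zero]
  · rw [LSeries.term_of_ne_zero hn.ne', ← Complex.ofReal_natCast n,
      ← Complex.ofReal_cpow (Nat.cast_nonneg n), ← Complex.ofReal_div, Complex.ofReal_re,
      Real.rpow_neg (Nat.cast_nonneg n), div_eq_mul_inv]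

lemma zp_rpow_bot {s : ℝ} (hs : 1 < s) :
    ((Ideal.absNorm (⊥ : Ideal (𝓞 K)) : ℕ) : ℝ) ^ (-s) = 0 := by
  rw [Ideal.absNorm_bot, Nat.cast_zero, Real.zero_rpow (by linarith)]

/-- the sum over all ideals -/
lemma zp_hasSum_ideal {s : ℝ} (hs : 1 < s) :
    HasSum (fun I : Ideal (𝓞 K) => ((Ideal.absNorm I : ℕ) : ℝ) ^ (-s)) (dedekindZeta K s).re := by
  have hfin : ∀ n : ℕ, Finite {I : Ideal (𝓞 K) // Ideal.absNorm I = n} := fun n =>
    (Ideal.finite_setOfPred_absNorm_eq n)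
  have hfib : ∀ n : ℕ, HasSum (fun I : {I : Ideal (𝓞 K) // Ideal.absNorm I = n} =>
      ((Ideal.absNorm I.1 : ℕ) : ℝ) ^ (-s)) ((idealCount K n : ℝ) * (n : ℝ) ^ (-s)) := by
    intro n
    have := hfin n
    have := Fintype.ofFinite {I : Ideal (𝓞 K) // Ideal.absNorm I = n}
    have : (fun I : {I : Ideal (𝓞 K) // Ideal.absNorm I = n} =>
        ((Ideal.absNorm I.1 : ℕ) : ℝ) ^ (-s)) = fun _ => (n : ℝ) ^ (-s) := by
      funext I; rw [I.2]
    rw [this]
    convert hasSum_fintype (fun _ : {I : Ideal (𝓞 K) // Ideal.absNorm I = n} => (n : ℝ) ^ (-s))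
    rw [Finset.sum_const, Finset.card_univ, nsmul_eq_mul, idealCount, Nat.card_eq_fintype_card]
  let e := Equiv.sigmaFiberEquiv (fun I : Ideal (𝓞 K) => Ideal.absNorm I)
  rw [← e.hasSum_iff]
  refine HasSum.sigma_of_hasSum (zp_hasSum_nat K hs) (fun n => hfib n) ?_
  refine (summable_sigma_of_nonneg (fun _ => Real.rpow_nonneg (Nat.cast_nonneg _) _)).mpr
    ⟨fun n => (hfib n).summable, ?_⟩
  have : (fun n : ℕ => ∑' I : {I : Ideal (𝓞 K) // Ideal.absNorm I = n},
      (((Ideal.absNorm I.1 : ℕ) : ℝ) ^ (-s))) = fun n => (idealCount K n : ℝ) * (n : ℝ) ^ (-s) :=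
    funext fun n => (hfib n).tsum_eq
  exact this ▸ (zp_hasSum_nat K hs).summable

/-- the sum over all nonzero ideals -/
lemma zp_hasSum_ideal_ne_bot {s : ℝ} (hs : 1 < s) :
    HasSum (fun I : {I : Ideal (𝓞 K) // I ≠ ⊥} => ((Ideal.absNorm I.1 : ℕ) : ℝ) ^ (-s))
      (dedekindZeta K s).re := by
  have := zp_hasSum_ideal K hs
  rw [← hasSum_subtype_iff_of_support_subset (s := {I : Ideal (𝓞 K) | I ≠ ⊥})] at this
  · exact this
  · intro I hI
    rw [Function.mem_support] at hI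
    rintro rfl
    exact hI (zp_rpow_bot K hs)

/-- `N(p)^{-s}` -/
noncomputable def zpX (s : ℝ) (p : HeightOneSpectrum (𝓞 K)) : ℝ :=
  ((Ideal.absNorm p.asIdeal : ℕ) : ℝ) ^ (-s)

lemma zp_two_le_absNorm (p : HeightOneSpectrum (𝓞 K)) : 2 ≤ Ideal.absNorm p.asIdeal := by
  have h0 : Ideal.absNorm p.asIdeal ≠ 0 := by
    rw [Ne, Ideal.absNorm_eq_zero_iff]; exact p.ne_bot
  have h1 : Ideal.absNorm p.asIdeal ≠ 1 := by
    rw [Ne, Ideal.absNorm_eq_one_iff]; exact p.isPrime.ne_top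
  omega

lemma zpX_nonneg (s : ℝ) (p : HeightOneSpectrum (𝓞 K)) : 0 ≤ zpX K s p :=
  Real.rpow_nonneg (Nat.cast_nonneg _) _

lemma zpX_le_half {s : ℝ} (hs : 1 ≤ s) (p : HeightOneSpectrum (𝓞 K)) : zpX K s p ≤ 1 / 2 := by
  have h2 : (2 : ℝ) ≤ (Ideal.absNorm p.asIdeal : ℕ) := by exact_mod_cast zp_two_le_absNorm K p
  calc zpX K s p ≤ (2 : ℝ) ^ (-s) :=
        Real.rpow_le_rpow_of_nonpos (by norm_num) h2 (by linarith)
    _ ≤ (2 : ℝ) ^ (-1 : ℝ) := Real.rpow_le_rpow_of_exponent_le (by norm_num) (by linarith)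
    _ = 1 / 2 := by rw [Real.rpow_neg_one]; norm_num

lemma zpX_anti {s t : ℝ} (hst : s ≤ t) (p : HeightOneSpectrum (𝓞 K)) : zpX K t p ≤ zpX K s p := by
  have h1 : (1 : ℝ) ≤ (Ideal.absNorm p.asIdeal : ℕ) := by
    exact_mod_cast le_trans (by norm_num) (zp_two_le_absNorm K p)
  exact Real.rpow_le_rpow_of_exponent_le h1 (by linarith)

lemma zp_rpow_ifProd (s : ℝ) (v : HeightOneSpectrum (𝓞 K) →₀ ℕ) :
    ((Ideal.absNorm (ifProd v) : ℕ) : ℝ) ^ (-s) = feMonomial (zpX K s) v := by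
  rw [absNorm_ifProd, feMonomial, Finsupp.prod, Finsupp.prod, Nat.cast_prod,
    ← Real.finsetProd_rpow _ _ (fun p _ => Nat.cast_nonneg _)]
  refine Finset.prod_congr rfl fun p _ => ?_
  rw [zpX, Nat.cast_pow, Real.rpow_pow_comm (Nat.cast_nonneg _)]

lemma zp_hasSum_monomial {s : ℝ} (hs : 1 < s) :
    HasSum (feMonomial (zpX K s)) (dedekindZeta K s).re := by
  have h := zp_hasSum_ideal_ne_bot K hs
  rw [← (ifEquiv (R := 𝓞 K)).hasSum_iff] at h
  refine h.congr_fun fun v => ?_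
  rw [← zp_rpow_ifProd]
  rfl

lemma zpX_summable {s : ℝ} (hs : 1 < s) : Summable (zpX K s) := by
  have h := (zp_hasSum_ideal_ne_bot K hs).summable
  let i : HeightOneSpectrum (𝓞 K) → {I : Ideal (𝓞 K) // I ≠ ⊥} := fun p => ⟨p.asIdeal, p.ne_bot⟩
  have hinj : Function.Injective i := by
    intro p q hpq
    exact HeightOneSpectrum.ext (congrArg Subtype.val hpq)
  have h2 := h.comp_injective hinj
  refine h2.congr fun p => ?_
  rfl

/-- the Euler product, logarithmic form -/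
lemma zp_zeta_eq_exp {s : ℝ} (hs : 1 < s) :
    (dedekindZeta K s).re = Real.exp (∑' p, -Real.log (1 - zpX K s p)) := by
  rw [← (zp_hasSum_monomial K hs).tsum_eq]
  exact fe_tsum_monomial (zpX K s) (zpX_nonneg K s) (zpX_le_half K hs.le) (zpX_summable K hs)

lemma zp_tendsto_re :
    Tendsto (fun s : ℝ => (s - 1) * (dedekindZeta K s).re) (𝓝[>] 1)
      (𝓝 (dedekindZeta_residue K)) := by
  have h := (Complex.continuous_re.tendsto _).comp (tendsto_sub_one_mul_dedekindZeta_nhdsGT K)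
  rw [Complex.ofReal_re] at h
  refine h.congr fun s => ?_
  simp only [Function.comp_apply]
  rw [show ((s : ℂ) - 1) = ((s - 1 : ℝ) : ℂ) by push_cast; ring, Complex.re_ofReal_mul]

lemma zp_log_zeta_isBigO :
    (fun s : ℝ => (∑' p, -Real.log (1 - zpX K s p)) + Real.log (s - 1)) =O[𝓝[>] 1]
      (fun _ => (1 : ℝ)) := by
  have h := (Real.continuousAt_log (dedekindZeta_residue_ne_zero K)).tendsto.comp
    (zp_tendsto_re K)
  refine h.isBigO_one ℝ |>.congr' ?_ EventuallyEq.rfl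
  filter_upwards [self_mem_nhdsWithin] with s hs
  have hs1 : (1 : ℝ) < s := hs
  simp only [Function.comp_apply]
  rw [zp_zeta_eq_exp K hs1, Real.log_mul (by linarith) (Real.exp_pos _).ne', Real.log_exp]
  ring

/-- the rational prime below `p` -/
noncomputable def zpUnder (p : HeightOneSpectrum (𝓞 K)) : ℕ :=
  Ideal.absNorm (Ideal.under ℤ p.asIdeal)

lemma zpUnder_prime (p : HeightOneSpectrum (𝓞 K)) : (zpUnder K p).Prime := by
  haveI : NeZero p.asIdeal := ⟨p.ne_bot⟩
  exact Nat.absNorm_under_prime p.asIdeal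

lemma zpUnder_pow (p : HeightOneSpectrum (𝓞 K)) :
    zpUnder K p ^ (p.asIdeal.inertiaDeg ℤ) = Ideal.absNorm p.asIdeal := by
  haveI : p.asIdeal.LiesOver (Ideal.span {((zpUnder K p : ℕ) : ℤ)}) :=
    Int.liesOver_span_absNorm p.asIdeal
  exact Ideal.pow_inertiaDeg (zpUnder K p) p.asIdeal

lemma zp_sq_le_of_not_prime (p : HeightOneSpectrum (𝓞 K))
    (h : ¬ (Ideal.absNorm p.asIdeal).Prime) : zpUnder K p ^ 2 ≤ Ideal.absNorm p.asIdeal := by
  rw [← zpUnder_pow]
  have hf : 0 < p.asIdeal.inertiaDeg ℤ := Ideal.inertiaDeg_pos _ _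
  have hf1 : p.asIdeal.inertiaDeg ℤ ≠ 1 := by
    intro h1
    apply h
    rw [← zpUnder_pow, h1, pow_one]
    exact zpUnder_prime K p
  exact Nat.pow_le_pow_right (zpUnder_prime K p).pos (by omega)

lemma zp_card_le (l : ℕ) (U : Finset (HeightOneSpectrum (𝓞 K)))
    (hU : ∀ p ∈ U, zpUnder K p = l) : U.card ≤ Module.finrank ℚ K := by
  rcases U.eq_empty_or_nonempty with rfl | ⟨p₀, hp₀⟩
  · simp
  have hl : l.Prime := hU p₀ hp₀ ▸ zpUnder_prime K p₀
  haveI : Fact l.Prime := ⟨hl⟩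
  set P : Ideal ℤ := Ideal.span {(l : ℤ)} with hP
  haveI : P.IsPrime := (Int.ideal_span_isMaximal_of_prime l).isPrime
  haveI : Fintype (P.primesOver (𝓞 K)) := (Algebra.QuasiFinite.finite_primesOver P).fintype
  have hsum := Ideal.sum_ramification_inertia_eq_finrank P (𝓞 K)
  rw [RingOfIntegers.rank] at hsum
  rw [← hsum]
  have hmem : ∀ p ∈ U, p.asIdeal ∈ P.primesOver (𝓞 K) := by
    intro p hp
    refine ⟨p.isPrime, ?_⟩
    have := Int.liesOver_span_absNorm p.asIdeal
    rw [show Ideal.absNorm (Ideal.under ℤ p.asIdeal) = l from hU p hp] at this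
    exact this
  calc U.card = (U.attach.image fun p => (⟨p.1.asIdeal, hmem p.1 p.2⟩ : P.primesOver (𝓞 K))).card := by
        rw [Finset.card_image_of_injective, Finset.card_attach]
        intro p q hpq
        exact Subtype.ext (HeightOneSpectrum.ext (congrArg Subtype.val hpq))
    _ ≤ (Finset.univ : Finset (P.primesOver (𝓞 K))).card := Finset.card_le_card (Finset.subset_univ _)
    _ = ∑ q : P.primesOver (𝓞 K), 1 := by simp
    _ ≤ _ := Finset.sum_le_sum fun q _ => by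
        have h1 : 0 < q.1.ramificationIdx ℤ := Ideal.ramificationIdx_pos _ _
        have h2 : 0 < q.1.inertiaDeg ℤ := Ideal.inertiaDeg_pos _ _
        exact Nat.mul_pos h1 h2

/-- the constant bounding the contribution of the primes of degree `≥ 2` -/
noncomputable def zpC : ℝ := (Module.finrank ℚ K : ℝ) * ∑' n : ℕ, ((n : ℝ) ^ 2)⁻¹

lemma zp_sum_nonprime_le {s : ℝ} (hs : 1 ≤ s) (U : Finset (HeightOneSpectrum (𝓞 K)))
    (hU : ∀ p ∈ U, ¬ (Ideal.absNorm p.asIdeal).Prime) :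
    ∑ p ∈ U, zpX K s p ≤ zpC K := by
  classical
  have hsumm : Summable fun n : ℕ => ((n : ℝ) ^ 2)⁻¹ := Real.summable_nat_pow_inv.mpr one_lt_two
  have h1 : ∀ p ∈ U, zpX K s p ≤ (((zpUnder K p : ℕ) : ℝ) ^ 2)⁻¹ := by
    intro p hp
    have hN : (0 : ℝ) < (Ideal.absNorm p.asIdeal : ℕ) := by
      exact_mod_cast lt_of_lt_of_le (by norm_num) (zp_two_le_absNorm K p)
    have hl : (0 : ℝ) < ((zpUnder K p : ℕ) : ℝ) ^ 2 := by
      have := (zpUnder_prime K p).pos
      positivity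
    calc zpX K s p ≤ zpX K 1 p := zpX_anti K hs p
      _ = ((Ideal.absNorm p.asIdeal : ℕ) : ℝ)⁻¹ := by rw [zpX, Real.rpow_neg_one]
      _ ≤ (((zpUnder K p : ℕ) : ℝ) ^ 2)⁻¹ := by
        rw [inv_le_inv₀ hN hl]
        exact_mod_cast zp_sq_le_of_not_prime K p (hU p hp)
  calc ∑ p ∈ U, zpX K s p ≤ ∑ p ∈ U, (((zpUnder K p : ℕ) : ℝ) ^ 2)⁻¹ := Finset.sum_le_sum h1
    _ = ∑ l ∈ U.image (zpUnder K), ∑ p ∈ U with zpUnder K p = l,
          (((zpUnder K p : ℕ) : ℝ) ^ 2)⁻¹ :=
        (Finset.sum_fiberwise_of_maps_to (fun p hp => Finset.mem_image_of_mem _ hp) _).symm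
    _ ≤ ∑ l ∈ U.image (zpUnder K), (Module.finrank ℚ K : ℝ) * ((l : ℝ) ^ 2)⁻¹ := by
        refine Finset.sum_le_sum fun l _ => ?_
        have hc : ∀ p ∈ U.filter (fun p => zpUnder K p = l),
            (((zpUnder K p : ℕ) : ℝ) ^ 2)⁻¹ = ((l : ℝ) ^ 2)⁻¹ := by
          intro p hp
          rw [(Finset.mem_filter.mp hp).2]
        rw [Finset.sum_congr rfl hc, Finset.sum_const, nsmul_eq_mul]
        refine mul_le_mul_of_nonneg_right ?_ (by positivity)
        exact_mod_cast zp_card_le K l _ fun p hp => (Finset.mem_filter.mp hp).2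
    _ = (Module.finrank ℚ K : ℝ) * ∑ l ∈ U.image (zpUnder K), ((l : ℝ) ^ 2)⁻¹ := by
        rw [Finset.mul_sum]
    _ ≤ zpC K := by
        refine mul_le_mul_of_nonneg_left ?_ (Nat.cast_nonneg _)
        exact hsumm.sum_le_tsum _ fun n _ => by positivity

/-- the primes of degree one -/
def zpDegOne : Set (HeightOneSpectrum (𝓞 K)) := {p | (Ideal.absNorm p.asIdeal).Prime}

lemma zp_tsum_compl_le {s : ℝ} (hs : 1 < s) :
    ∑' p : ↑(zpDegOne K)ᶜ, zpX K s p ≤ zpC K := by
  refine ((zpX_summable K hs).subtype _).tsum_le_of_sum_le fun U => ?_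
  have := zp_sum_nonprime_le K hs.le (U.map (Function.Embedding.subtype _)) (by
    intro p hp
    obtain ⟨q, _, rfl⟩ := Finset.mem_map.mp hp
    exact q.2)
  rwa [Finset.sum_map] at this

/-- the norm of a prime of degree one, as a prime number -/
noncomputable def zpNormPrime (p : zpDegOne K) : Nat.Primes := ⟨Ideal.absNorm p.1.asIdeal, p.2⟩

/-- the fibre of the norm over a prime number -/
noncomputable def zpFiberEquiv (l : Nat.Primes) :
    {p : zpDegOne K // zpNormPrime K p = l} ≃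
      {I : Ideal (𝓞 K) // Ideal.absNorm I = l} where
  toFun p := ⟨p.1.1.asIdeal, congrArg Subtype.val p.2⟩
  invFun I := ⟨⟨⟨I.1, Ideal.isPrime_of_irreducible_absNorm (by rw [I.2]; exact l.2), by
      intro h
      have := I.2
      rw [h, Ideal.absNorm_bot] at this
      exact l.2.ne_zero this.symm⟩, show (Ideal.absNorm I.1).Prime by rw [I.2]; exact l.2⟩,
    Subtype.ext I.2⟩
  left_inv p := rfl
  right_inv I := rfl

lemma zp_hasSum_degOne {s : ℝ} (hs : 1 < s) :
    HasSum (fun l : Nat.Primes => (idealCount K l : ℝ) * ((l : ℕ) : ℝ) ^ (-s))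
      (∑' p : zpDegOne K, zpX K s p) := by
  have hsub : Summable fun p : zpDegOne K => zpX K s p := (zpX_summable K hs).subtype _
  let e := Equiv.sigmaFiberEquiv (zpNormPrime K)
  have hfib : ∀ l : Nat.Primes,
      HasSum (fun c : {p : zpDegOne K // zpNormPrime K p = l} => zpX K s (e ⟨l, c⟩))
      ((idealCount K l : ℝ) * ((l : ℕ) : ℝ) ^ (-s)) := by
    intro l
    have hfin : Finite {p : zpDegOne K // zpNormPrime K p = l} := by
      haveI : Finite {I : Ideal (𝓞 K) // Ideal.absNorm I = l} :=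
        Ideal.finite_setOfPred_absNorm_eq (l : ℕ)
      exact Finite.of_equiv _ (zpFiberEquiv K l).symm
    haveI := Fintype.ofFinite {p : zpDegOne K // zpNormPrime K p = l}
    have hconst : (fun c : {p : zpDegOne K // zpNormPrime K p = l} => zpX K s (e ⟨l, c⟩)) =
        fun _ => ((l : ℕ) : ℝ) ^ (-s) := by
      funext c
      have : Ideal.absNorm c.1.1.asIdeal = l := congrArg Subtype.val c.2
      show ((Ideal.absNorm c.1.1.asIdeal : ℕ) : ℝ) ^ (-s) = _
      rw [this]
    rw [hconst]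
    have hcard : (idealCount K l : ℝ) = Fintype.card {p : zpDegOne K // zpNormPrime K p = l} := by
      rw [idealCount, ← Nat.card_congr (zpFiberEquiv K l), Nat.card_eq_fintype_card]
    rw [hcard]
    have := hasSum_fintype (fun _ : {p : zpDegOne K // zpNormPrime K p = l} =>
      ((l : ℕ) : ℝ) ^ (-s))
    rw [Finset.sum_const, Finset.card_univ, nsmul_eq_mul] at this
    exact this
  have hsig : Summable fun σ : (Σ l, {p : zpDegOne K // zpNormPrime K p = l}) =>
      zpX K s (e σ) :=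
    (e.summable_iff (f := fun p : zpDegOne K => zpX K s p)).mpr hsub
  have h1 : ∑' p : zpDegOne K, zpX K s p = ∑' σ, zpX K s (e σ) :=
    (e.tsum_eq (fun p : zpDegOne K => zpX K s p)).symm
  have h3 : ∑' σ : (Σ l, {p : zpDegOne K // zpNormPrime K p = l}), zpX K s (e σ) =
      ∑' l : Nat.Primes, ∑' c : {p : zpDegOne K // zpNormPrime K p = l}, zpX K s (e ⟨l, c⟩) :=
    hsig.tsum_sigma' (fun l => (hfib l).summable)
  have h4 : HasSum (fun l : Nat.Primes =>
      ∑' c : {p : zpDegOne K // zpNormPrime K p = l}, zpX K s (e ⟨l, c⟩))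
      (∑' p : zpDegOne K, zpX K s p) := by
    rw [h1, h3]
    exact hsig.sigma.hasSum
  refine h4.congr_fun fun l => ?_
  exact (hfib l).tsum_eq.symm

lemma zpX_sq_le {s : ℝ} (hs : 1 ≤ s) (p : HeightOneSpectrum (𝓞 K)) :
    zpX K s p ^ 2 ≤ zpX K 2 p := by
  have hN : (0 : ℝ) < (Ideal.absNorm p.asIdeal : ℕ) := by
    exact_mod_cast lt_of_lt_of_le (by norm_num) (zp_two_le_absNorm K p)
  have h1 := zpX_anti K hs p
  have h0 := zpX_nonneg K s p
  calc zpX K s p ^ 2 ≤ zpX K 1 p ^ 2 := pow_le_pow_left₀ h0 h1 2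
    _ = zpX K 2 p := by
      rw [zpX, zpX, sq, ← Real.rpow_add hN]
      norm_num

theorem zp_summable_primes {s : ℝ} (hs : 1 < s) :
    Summable (fun l : Nat.Primes => (idealCount K l : ℝ) * ((l : ℕ) : ℝ) ^ (-s)) :=
  (zp_hasSum_degOne K hs).summable

lemma zp_tsum_split {s : ℝ} (hs : 1 < s) :
    ∑' p, zpX K s p = (∑' l : Nat.Primes, (idealCount K l : ℝ) * ((l : ℕ) : ℝ) ^ (-s)) +
      ∑' p : ↑(zpDegOne K)ᶜ, zpX K s p := by
  rw [(zp_hasSum_degOne K hs).tsum_eq]
  exact ((zpX_summable K hs).tsum_subtype_add_tsum_subtype_compl (zpDegOne K)).symm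

theorem zp_primes_isBigO :
    (fun s : ℝ => (∑' l : Nat.Primes, (idealCount K l : ℝ) * ((l : ℕ) : ℝ) ^ (-s)) +
      Real.log (s - 1)) =O[𝓝[>] 1] (fun _ => (1 : ℝ)) := by
  have hbd : (fun s : ℝ => ((∑' p, -Real.log (1 - zpX K s p)) - ∑' p, zpX K s p) +
      ∑' p : ↑(zpDegOne K)ᶜ, zpX K s p) =O[𝓝[>] 1] (fun _ => (1 : ℝ)) := by
    refine Asymptotics.IsBigO.of_bound (2 * (∑' p, zpX K 2 p) + zpC K) ?_
    filter_upwards [self_mem_nhdsWithin] with s hs
    have hs1 : (1 : ℝ) < s := hs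
    rw [norm_one, mul_one, Real.norm_eq_abs]
    have h1 := fe_abs_tsum_neg_log_sub_le (zpX K s) (zpX_nonneg K s) (zpX_le_half K hs1.le)
      (zpX_summable K hs1)
    have h2 : ∑' p, zpX K s p ^ 2 ≤ ∑' p, zpX K 2 p := by
      refine Summable.tsum_le_tsum (fun p => zpX_sq_le K hs1.le p) ?_
        (zpX_summable K one_lt_two)
      exact Summable.of_nonneg_of_le (fun p => sq_nonneg _) (fun p => zpX_sq_le K hs1.le p)
        (zpX_summable K one_lt_two)
    have h3 := zp_tsum_compl_le K hs1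
    have h4 : 0 ≤ ∑' p : ↑(zpDegOne K)ᶜ, zpX K s p := tsum_nonneg fun p => zpX_nonneg K s p
    refine (abs_add_le _ _).trans ?_
    rw [abs_of_nonneg h4]
    linarith
  refine ((zp_log_zeta_isBigO K).sub hbd).congr' ?_ EventuallyEq.rfl
  filter_upwards [self_mem_nhdsWithin] with s hs
  have hs1 : (1 : ℝ) < s := hs
  rw [zp_tsum_split K hs1]
  ring

end Fermat.Agent.FrobDensity
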