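/-
G1 (Frobenius density), file D: the per-prime identity.

`L / ℚ` Galois with group `G`, `H ≤ G`, `E = L ^ H` (`poFixed L H`).  For a prime number `q` such that
all primes of `𝓞 L` above `q` have trivial inertia group:

  `|H| * #{ideals of 𝓞 E of norm q} = ∑_{P | q, Stab_G P ≤ H} |Stab_G P|`   (`po_card_mul_idealCount`).
-/
import Fermat.Agent.Lib.CFT.Global.Frobenius
import Fermat.Agent.Lib.CFT.Global.FinitelyRamified
import Fermat.Agent.Lib.FrobDensity.ZetaPrimes

set_option autoImplicit false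
set_option linter.style.haveILetI false
set_option linter.unusedSectionVars false

open NumberField
open scoped Pointwise

namespace Fermat.Agent.FrobDensity

open Fermat.Agent.CFT.Global

variable {L : Type} [Field L] [NumberField L] {G : Type} [Group G] [Finite G]
  [MulSemiringAction G L] [IsGaloisGroup G ℚ L]

variable (L) in
/-- the fixed field of a subgroup -/
abbrev poFixed (H : Subgroup G) : IntermediateField ℚ L := FixedPoints.intermediateField H

lemma po_isGaloisGroup (H : Subgroup G) : IsGaloisGroup H (𝓞 ↥(poFixed L H)) (𝓞 L) :=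
  IsGaloisGroup.of_isFractionRing H _ _ ↥(poFixed L H) L

variable (q : ℕ) [hq : Fact q.Prime]

lemma po_card_stabilizer {P : Ideal (𝓞 L)} [P.IsPrime]
    (hqP : ((q : ℕ) : 𝓞 L) ∈ P) (hin : Ideal.inertia G P = ⊥) :
    Nat.card (MulAction.stabilizer G P) = P.inertiaDeg ℤ := by
  haveI := Frob.isGaloisGroup_int (L := L) (G := G)
  haveI := liesOver_span_natCast_of_mem hqP
  haveI := (isMaximal_span_natCast_int q).isPrime
  rw [Ideal.card_stabilizer_eq_card_inertia_mul_finrank (Ideal.span {((q : ℕ) : ℤ)}) P, hin,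
    Subgroup.card_bot, one_mul]

lemma po_card_stabilizer_sub (H : Subgroup G) {P : Ideal (𝓞 L)} [P.IsPrime]
    (hqP : ((q : ℕ) : 𝓞 L) ∈ P) (hin : Ideal.inertia G P = ⊥) :
    Nat.card (MulAction.stabilizer H P) = P.inertiaDeg (𝓞 ↥(poFixed L H)) := by
  haveI := po_isGaloisGroup (L := L) H
  have hP0 : P ≠ ⊥ := by
    rintro rfl
    rw [Ideal.mem_bot] at hqP
    exact hq.out.ne_zero (by exact_mod_cast hqP)
  have hp0 : P.under (𝓞 ↥(poFixed L H)) ≠ ⊥ := by
    intro h
    exact hP0 (Ideal.eq_bot_of_comap_eq_bot h)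
  haveI : Finite (𝓞 ↥(poFixed L H) ⧸ P.under (𝓞 ↥(poFixed L H))) :=
    Ideal.finiteQuotientOfFreeOfNeBot _ hp0
  have hin' : Ideal.inertia H P = ⊥ := by
    rw [eq_bot_iff]
    intro h hh
    have : (h : G) ∈ Ideal.inertia G P := hh
    rw [hin, Subgroup.mem_bot] at this
    exact Subgroup.mem_bot.mpr (Subtype.ext this)
  have h := Ideal.card_stabilizer_eq_card_inertia_mul_finrank (G := H)
    (P.under (𝓞 ↥(poFixed L H))) P
  rw [hin', Subgroup.card_bot, one_mul] at h
  exact h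

lemma po_stabilizer_sub (H : Subgroup G) (P : Ideal (𝓞 L)) :
    MulAction.stabilizer H P = (MulAction.stabilizer G P).subgroupOf H := by
  ext h
  simp [Subgroup.mem_subgroupOf, MulAction.mem_stabilizer_iff, Subgroup.smul_def]

lemma po_card_subgroupOf (S H : Subgroup G) :
    Nat.card (S.subgroupOf H) = Nat.card ↥(S ⊓ H) := by
  rw [← Subgroup.inf_subgroupOf_right S H]
  exact Nat.card_congr (Subgroup.subgroupOfEquivOfLe inf_le_right).toEquiv

lemma po_le_iff_card (S H : Subgroup G) :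
    S ≤ H ↔ Nat.card (S.subgroupOf H) = Nat.card S := by
  rw [po_card_subgroupOf]
  constructor
  · intro h
    rw [inf_eq_left.mpr h]
  · intro h
    have := Subgroup.eq_of_le_of_card_ge (inf_le_left : S ⊓ H ≤ S) (le_of_eq h.symm)
    exact inf_eq_left.mp this

lemma po_inertiaDeg_under_eq_one_iff (H : Subgroup G) {P : Ideal (𝓞 L)} [P.IsPrime]
    (hqP : ((q : ℕ) : 𝓞 L) ∈ P) (hin : Ideal.inertia G P = ⊥) :
    (P.under (𝓞 ↥(poFixed L H))).inertiaDeg ℤ = 1 ↔ MulAction.stabilizer G P ≤ H := by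
  have h1 := po_card_stabilizer q hqP hin
  have h2 := po_card_stabilizer_sub q H hqP hin
  have h3 : P.inertiaDeg ℤ =
      (P.under (𝓞 ↥(poFixed L H))).inertiaDeg ℤ * P.inertiaDeg (𝓞 ↥(poFixed L H)) :=
    Ideal.inertiaDeg_tower (P.under (𝓞 ↥(poFixed L H))) P
  have hb : 0 < P.inertiaDeg (𝓞 ↥(poFixed L H)) := Ideal.inertiaDeg_pos _ _
  rw [po_le_iff_card, ← po_stabilizer_sub, h1, h2, h3]
  constructor
  · intro h; rw [h, one_mul]
  · intro h
    have : 1 * P.inertiaDeg (𝓞 ↥(poFixed L H)) =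
      (P.under (𝓞 ↥(poFixed L H))).inertiaDeg ℤ * P.inertiaDeg (𝓞 ↥(poFixed L H)) := by
      rw [one_mul]; exact h
    exact (Nat.eq_of_mul_eq_mul_right hb this).symm

/-- an ideal of prime norm `q`: it is prime, contains `q`, and has degree one -/
lemma po_of_absNorm_eq {F : Type} [Field F] [NumberField F] {I : Ideal (𝓞 F)}
    (hI : Ideal.absNorm I = q) :
    I.IsPrime ∧ ((q : ℕ) : 𝓞 F) ∈ I ∧ I.inertiaDeg ℤ = 1 := by
  have hprime : I.IsPrime := Ideal.isPrime_of_irreducible_absNorm (by rw [hI]; exact hq.out)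
  have hmem : ((q : ℕ) : 𝓞 F) ∈ I := by
    have := Ideal.absNorm_mem I
    rwa [hI] at this
  refine ⟨hprime, hmem, ?_⟩
  haveI := liesOver_span_natCast_of_mem hmem
  have h := Ideal.pow_inertiaDeg q I
  rw [hI] at h
  exact Nat.pow_right_injective hq.out.two_le (by simpa using h)

/-- a prime over `q` of degree one has norm `q` -/
lemma po_absNorm_eq_of_inertiaDeg {F : Type} [Field F] [NumberField F] {I : Ideal (𝓞 F)}
    [I.IsPrime] (hmem : ((q : ℕ) : 𝓞 F) ∈ I) (hf : I.inertiaDeg ℤ = 1) :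
    Ideal.absNorm I = q := by
  haveI := liesOver_span_natCast_of_mem hmem
  rw [← Ideal.pow_inertiaDeg q I, hf, pow_one]

variable (L) in
/-- the primes of `𝓞 L` above `q` -/
noncomputable def poPrimes : Finset (Ideal (𝓞 L)) :=
  (Algebra.QuasiFinite.finite_primesOver (S := 𝓞 L) (Ideal.span {((q : ℕ) : ℤ)})).toFinset

lemma mem_poPrimes {P : Ideal (𝓞 L)} :
    P ∈ poPrimes L q ↔ P.IsPrime ∧ ((q : ℕ) : 𝓞 L) ∈ P := by
  rw [poPrimes, Set.Finite.mem_toFinset]
  constructor
  · rintro ⟨hP, hlo⟩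
    refine ⟨hP, ?_⟩
    have : ((q : ℕ) : ℤ) ∈ P.under ℤ := by
      rw [← hlo.over]; exact Ideal.subset_span rfl
    simpa using this
  · rintro ⟨hP, hmem⟩
    exact ⟨hP, liesOver_span_natCast_of_mem hmem⟩

lemma po_natCast_mem_of_liesOver (H : Subgroup G) {I : Ideal (𝓞 ↥(poFixed L H))}
    (hIq : ((q : ℕ) : 𝓞 ↥(poFixed L H)) ∈ I) {P : Ideal (𝓞 L)} [hlo : P.LiesOver I] :
    ((q : ℕ) : 𝓞 L) ∈ P := by
  have h1 : ((q : ℕ) : 𝓞 ↥(poFixed L H)) ∈ P.under (𝓞 ↥(poFixed L H)) := by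
    rw [← hlo.over]; exact hIq
  simpa using h1

/-- the decomposition groups of the primes above a prime of degree one of the fixed field -/
lemma po_sum_card_stabilizer_primesOver (H : Subgroup G)
    (hunr : ∀ P : Ideal (𝓞 L), P.IsPrime → ((q : ℕ) : 𝓞 L) ∈ P → Ideal.inertia G P = ⊥)
    {I : Ideal (𝓞 ↥(poFixed L H))} (hI : Ideal.absNorm I = q) :
    ∑ P ∈ (Algebra.QuasiFinite.finite_primesOver (S := 𝓞 L) I).toFinset,
      Nat.card (MulAction.stabilizer G P) = Nat.card H := by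
  obtain ⟨hIp, hIq, hIf⟩ := po_of_absNorm_eq q hI
  haveI := hIp
  haveI := po_isGaloisGroup (L := L) H
  have hI0 : I ≠ ⊥ := by
    rintro rfl
    rw [Ideal.absNorm_bot] at hI
    exact hq.out.ne_zero hI.symm
  haveI : Finite (𝓞 ↥(poFixed L H) ⧸ I) := Ideal.finiteQuotientOfFreeOfNeBot _ hI0
  set T := (Algebra.QuasiFinite.finite_primesOver (S := 𝓞 L) I).toFinset with hT
  have key : ∀ P ∈ T, (I.primesOver (𝓞 L)).ncard * Nat.card (MulAction.stabilizer G P) =
      Nat.card H := by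
    intro P hP
    rw [hT, Set.Finite.mem_toFinset] at hP
    obtain ⟨hPp, hPlo⟩ := hP
    haveI := hPp
    haveI := hPlo
    have hqP : ((q : ℕ) : 𝓞 L) ∈ P := po_natCast_mem_of_liesOver q H hIq
    have hin := hunr P hPp hqP
    have hunder : P.under (𝓞 ↥(poFixed L H)) = I := hPlo.over.symm
    have hle : MulAction.stabilizer G P ≤ H := by
      rw [← po_inertiaDeg_under_eq_one_iff q H hqP hin, hunder]
      exact hIf
    have hcard : Nat.card (MulAction.stabilizer G P) = P.inertiaDeg (𝓞 ↥(poFixed L H)) := by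
      rw [← po_card_stabilizer_sub q H hqP hin, po_stabilizer_sub, (po_le_iff_card _ _).mp hle]
    have hin' : Ideal.inertia H P = ⊥ := by
      rw [eq_bot_iff]
      intro h hh
      have : (h : G) ∈ Ideal.inertia G P := hh
      rw [hin, Subgroup.mem_bot] at this
      exact Subgroup.mem_bot.mpr (Subtype.ext this)
    have h := Ideal.ncard_primesOver_mul_card_inertia_mul_finrank (G := H) I P
    rw [hin', Subgroup.card_bot, mul_one] at h
    rw [hcard]
    exact h
  obtain ⟨⟨P₀, hP₀⟩⟩ := I.nonempty_primesOver (S := 𝓞 L)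
  have hP₀T : P₀ ∈ T := by rw [hT, Set.Finite.mem_toFinset]; exact hP₀
  have hn0 : (I.primesOver (𝓞 L)).ncard ≠ 0 := by
    intro h0
    have := key P₀ hP₀T
    rw [h0, zero_mul] at this
    exact (Nat.card_pos (α := H)).ne' this.symm
  have hconst : ∀ P ∈ T, Nat.card (MulAction.stabilizer G P) =
      Nat.card (MulAction.stabilizer G P₀) := by
    intro P hP
    exact Nat.eq_of_mul_eq_mul_left (Nat.pos_of_ne_zero hn0) ((key P hP).trans (key P₀ hP₀T).symm)
  rw [Finset.sum_congr rfl hconst, Finset.sum_const, smul_eq_mul, ← key P₀ hP₀T,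
    Set.ncard_eq_toFinset_card _ (Algebra.QuasiFinite.finite_primesOver (S := 𝓞 L) I)]

open Classical in
/-- **the per-prime identity** -/
theorem po_card_mul_idealCount (H : Subgroup G)
    (hunr : ∀ P : Ideal (𝓞 L), P.IsPrime → ((q : ℕ) : 𝓞 L) ∈ P → Ideal.inertia G P = ⊥) :
    Nat.card H * idealCount ↥(poFixed L H) q =
      ∑ P ∈ (poPrimes L q).filter (fun P => MulAction.stabilizer G P ≤ H),
        Nat.card (MulAction.stabilizer G P) := by
  set t : Finset (Ideal (𝓞 ↥(poFixed L H))) :=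
    (Ideal.finite_setOfPred_absNorm_eq (S := 𝓞 ↥(poFixed L H)) q).toFinset with ht
  have hmaps : ∀ P ∈ (poPrimes L q).filter (fun P => MulAction.stabilizer G P ≤ H),
      P.under (𝓞 ↥(poFixed L H)) ∈ t := by
    intro P hP
    rw [Finset.mem_filter, mem_poPrimes] at hP
    obtain ⟨⟨hPp, hqP⟩, hle⟩ := hP
    haveI := hPp
    rw [ht, Set.Finite.mem_toFinset, Set.mem_ofPred_eq]
    have hf := (po_inertiaDeg_under_eq_one_iff q H hqP (hunr P hPp hqP)).mpr hle
    refine po_absNorm_eq_of_inertiaDeg q ?_ hf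
    show algebraMap (𝓞 ↥(poFixed L H)) (𝓞 L) ((q : ℕ) : 𝓞 ↥(poFixed L H)) ∈ P
    simpa using hqP
  rw [← Finset.sum_fiberwise_of_maps_to hmaps]
  have hfib : ∀ I ∈ t, ∑ P ∈ (poPrimes L q).filter (fun P => MulAction.stabilizer G P ≤ H) with
      P.under (𝓞 ↥(poFixed L H)) = I, Nat.card (MulAction.stabilizer G P) = Nat.card H := by
    intro I hI
    rw [ht, Set.Finite.mem_toFinset, Set.mem_ofPred_eq] at hI
    rw [← po_sum_card_stabilizer_primesOver q H hunr hI]
    refine Finset.sum_congr ?_ fun _ _ => rfl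
    obtain ⟨hIp, hIq, hIf⟩ := po_of_absNorm_eq q hI
    ext P
    rw [Finset.mem_filter, Finset.mem_filter, mem_poPrimes, Set.Finite.mem_toFinset]
    constructor
    · rintro ⟨⟨⟨hPp, -⟩, -⟩, hu⟩
      exact ⟨hPp, ⟨hu.symm⟩⟩
    · rintro ⟨hPp, hlo⟩
      haveI := hPp
      haveI := hlo
      have hqP : ((q : ℕ) : 𝓞 L) ∈ P := po_natCast_mem_of_liesOver q H hIq
      have hu : P.under (𝓞 ↥(poFixed L H)) = I := hlo.over.symm
      refine ⟨⟨⟨hPp, hqP⟩, ?_⟩, hu⟩
      rw [← po_inertiaDeg_under_eq_one_iff q H hqP (hunr P hPp hqP), hu]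
      exact hIf
  rw [Finset.sum_congr rfl hfib, Finset.sum_const, smul_eq_mul, mul_comm, idealCount,
    ← Set.ncard_eq_toFinset_card _ (Ideal.finite_setOfPred_absNorm_eq (S := 𝓞 ↥(poFixed L H)) q)]
  rfl

end Fermat.Agent.FrobDensity
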