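/-
G1 (Frobenius density), file F1: the Frobenius density theorem for a Galois number field `L / ℚ`
with group `G`:

`exists_prime_stabilizer_eq_zpowers σ T` : there is a prime number `q ∉ T` and a prime `P` of `𝓞 L`
above `q` with trivial inertia group and decomposition group `⟨σ⟩`.
-/
import Fermat.Agent.Lib.FrobDensity.PrimeOrbits
import Fermat.Agent.Lib.FrobDensity.Density

set_option autoImplicit false
set_option linter.style.haveILetI false
set_option linter.unusedSectionVars false

open NumberField Filter Topology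
open scoped Pointwise

namespace Fermat.Agent.FrobDensity

open Fermat.Agent.CFT.Global

variable {L : Type} [Field L] [NumberField L] {G : Type} [Group G] [Finite G]
  [MulSemiringAction G L] [IsGaloisGroup G ℚ L]

open Classical in
variable (L) in
/-- the number of primes above `q` with decomposition group `D` -/
noncomputable def frobCount (D : Subgroup G) (q : ℕ) : ℕ :=
  ((poPrimes L q).filter (fun P => MulAction.stabilizer G P = D)).card

open Classical in
lemma sum_card_mul_frobCount [Fintype (Subgroup G)] (H : Subgroup G) (q : ℕ) :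
    ∑ D ∈ Finset.univ.filter (fun D : Subgroup G => D ≤ H), Nat.card D * frobCount L D q =
      ∑ P ∈ (poPrimes L q).filter (fun P => MulAction.stabilizer G P ≤ H),
        Nat.card (MulAction.stabilizer G P) := by
  rw [← Finset.sum_fiberwise_of_maps_to (g := fun P : Ideal (𝓞 L) => MulAction.stabilizer G P)
    (t := Finset.univ.filter (fun D : Subgroup G => D ≤ H))
    (fun P hP => by
      rw [Finset.mem_filter] at hP ⊢
      exact ⟨Finset.mem_univ _, hP.2⟩)]
  refine Finset.sum_congr rfl fun D hD => ?_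
  rw [Finset.mem_filter] at hD
  have hconst : ∀ P ∈ ((poPrimes L q).filter (fun P => MulAction.stabilizer G P ≤ H)).filter
      (fun P => MulAction.stabilizer G P = D), Nat.card (MulAction.stabilizer G P) = Nat.card D := by
    intro P hP
    rw [(Finset.mem_filter.mp hP).2]
  rw [Finset.sum_congr rfl hconst, Finset.sum_const, smul_eq_mul, mul_comm, frobCount]
  congr 2
  ext P
  simp only [Finset.mem_filter]
  constructor
  · intro h; exact ⟨⟨h.1, h.2 ▸ hD.2⟩, h.2⟩
  · intro h; exact ⟨h.1.1, h.2⟩

/-- trivial inertia from ramification index one -/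
lemma po_inertia_eq_bot (q : ℕ) [hq : Fact q.Prime] {P : Ideal (𝓞 L)} [P.IsPrime]
    (hqP : ((q : ℕ) : 𝓞 L) ∈ P) (he : P.ramificationIdx ℤ = 1) : Ideal.inertia G P = ⊥ := by
  haveI := Frob.isGaloisGroup_int (L := L) (G := G)
  haveI := liesOver_span_natCast_of_mem hqP
  haveI := (isMaximal_span_natCast_int q).isPrime
  rw [← Subgroup.card_eq_one,
    Ideal.card_inertia_eq_ramificationIdxIn (G := G) (Ideal.span {((q : ℕ) : ℤ)}) P,
    Ideal.ramificationIdxIn_eq_ramificationIdx (Ideal.span {((q : ℕ) : ℤ)}) P G, he]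

/-- **Frobenius density theorem, number field form**: for every `σ ∈ G = Gal(L/ℚ)` and every
finite set `T` of numbers there is a prime number `q ∉ T` and a prime `P` of `𝓞 L` above `q` with
trivial inertia group whose decomposition group is generated by `σ`. -/
theorem exists_prime_stabilizer_eq_zpowers (σ : G) (T : Finset ℕ) :
    ∃ q : ℕ, q.Prime ∧ q ∉ T ∧ ∃ P : Ideal (𝓞 L), P.IsPrime ∧ ((q : ℕ) : 𝓞 L) ∈ P ∧
      Ideal.inertia G P = ⊥ ∧ MulAction.stabilizer G P = Subgroup.zpowers σ := by
  classical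
  haveI : Fintype (Subgroup G) := Fintype.ofFinite _
  have hn0 : Ideal.absNorm (differentIdeal ℤ (𝓞 L)) ≠ 0 := by
    rw [Ne, Ideal.absNorm_eq_zero_iff]
    exact differentIdeal_ne_bot
  set S : Finset Nat.Primes :=
    primeFactorsPrimes (Ideal.absNorm (differentIdeal ℤ (𝓞 L))) ∪
      (Finset.subtype Nat.Prime T : Finset Nat.Primes) with hS
  have hunr : ∀ l : Nat.Primes, l ∉ S → ∀ P : Ideal (𝓞 L), P.IsPrime →
      (((l : ℕ) : ℕ) : 𝓞 L) ∈ P → Ideal.inertia G P = ⊥ := by
    intro l hl P hP hlP
    haveI : Fact (l : ℕ).Prime := ⟨l.2⟩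
    haveI := hP
    have hnd : ¬ (l : ℕ) ∣ Ideal.absNorm (differentIdeal ℤ (𝓞 L)) := by
      intro hd
      exact hl (Finset.mem_union_left _ ((mem_primeFactorsPrimes hn0 l).mpr hd))
    exact po_inertia_eq_bot (l : ℕ) hlP
      (ramificationIdx_eq_one_of_not_dvd_absNorm_different L l.2 hnd P hlP)
  obtain ⟨l, hlS, hl⟩ := dn_exists_prime
    (fun (H : Subgroup G) (l : Nat.Primes) => idealCount ↥(poFixed L H) (l : ℕ))
    (fun (D : Subgroup G) (l : Nat.Primes) => frobCount L D (l : ℕ)) S
    (fun H s hs => zp_summable_primes ↥(poFixed L H) hs)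
    (fun H => zp_primes_isBigO ↥(poFixed L H))
    (fun H l hl => by
      haveI : Fact (l : ℕ).Prime := ⟨l.2⟩
      rw [po_card_mul_idealCount (l : ℕ) H (hunr l hl), sum_card_mul_frobCount])
    σ
  have hne : ((poPrimes L (l : ℕ)).filter
      (fun P => MulAction.stabilizer G P = Subgroup.zpowers σ)).Nonempty := by
    rw [← Finset.card_pos]
    exact Nat.pos_of_ne_zero hl
  obtain ⟨P, hP⟩ := hne
  rw [Finset.mem_filter] at hP
  haveI : Fact (l : ℕ).Prime := ⟨l.2⟩
  obtain ⟨hPp, hlP⟩ := (mem_poPrimes (l : ℕ)).mp hP.1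
  refine ⟨l, l.2, ?_, P, hPp, hlP, hunr l hlS P hPp hlP, hP.2⟩
  intro hT
  exact hlS (Finset.mem_union_right _ (Finset.mem_subtype.mpr hT))

end Fermat.Agent.FrobDensity
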