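/-
G1 (Frobenius density), file F2: the Frobenius density theorem in the vocabulary of the Prelude
(valuation subrings of `ℚ̄`, `ValuationSubring.IsFrobeniusAt`, `inertiaSubgroupIn`).

`exists_frobenius_generating L σ T` : for a finite normal `L / ℚ` inside `ℚ̄`, `σ ∈ G_ℚ` and a finite
set `T` of numbers, there are a prime number `l ∉ T`, a valuation subring `P` of `ℚ̄` above `l` whose
inertia group acts trivially on `L`, and a Frobenius element `φ` at `P` with `φ|_L = (σ|_L) ^ a`,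
`a` prime to the order of `σ|_L`.
-/
import Fermat.Agent.Lib.FrobDensity.Core
import Fermat.Agent.Lib.CFT.Bridge.UnramifiedLevel

set_option autoImplicit false
set_option linter.style.haveILetI false
set_option linter.unusedSectionVars false

open NumberField
open scoped Pointwise

namespace Fermat.Agent.FrobDensity

open Fermat.Agent.CFT Fermat.Agent.CFT.Bridge Fermat.Agent.CFT.Global

/-- a Frobenius element acts as `x ↦ x ^ q` modulo the maximal ideal -/
lemma valuation_frobenius_sub_pow_lt_one {A : ValuationSubring Qbar} {φ : GQ} {q : ℕ}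
    (h : A.IsFrobeniusAt φ q) {x : Qbar} (hx : x ∈ A) : A.valuation (φ x - x ^ q) < 1 := by
  have h1 := h.smul_residue_eq (IsLocalRing.residue A ⟨x, hx⟩)
  rw [← IsLocalRing.ResidueField.residue_smul, ← map_pow] at h1
  have hmem : ((⟨φ, h.mem_decompositionSubgroup⟩ : A.decompositionSubgroup ℚ) • (⟨x, hx⟩ : A)) -
      (⟨x, hx⟩ : A) ^ q ∈ IsLocalRing.maximalIdeal A := by
    rw [← Ideal.Quotient.eq]
    exact h1
  exact (A.valuation_lt_one_iff _).mp hmem

variable (F : IntermediateField ℚ Qbar)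

lemma restrictRat_mul (h : @Normal ℚ ↥F _ _ F.algebra') (σ τ : GQ) :
    restrictRat F h (σ * τ) = restrictRat F h σ * restrictRat F h τ := by
  ext x
  rw [restrictRat_coe, AlgEquiv.mul_apply, AlgEquiv.mul_apply, restrictRat_coe, restrictRat_coe]

lemma restrictRat_one (h : @Normal ℚ ↥F _ _ F.algebra') : restrictRat F h 1 = 1 := by
  ext x
  rw [restrictRat_coe]
  rfl

lemma restrictRat_pow (h : @Normal ℚ ↥F _ _ F.algebra') (σ : GQ) (n : ℕ) :
    restrictRat F h (σ ^ n) = restrictRat F h σ ^ n := by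
  induction n with
  | zero => rw [pow_zero, pow_zero, restrictRat_one]
  | succ n ih => rw [pow_succ, pow_succ, restrictRat_mul, ih]

/-- the restriction of a Frobenius element is an arithmetic Frobenius at the prime below -/
lemma isArithFrobAt_restrictRat [NumberField ↥F] (h : @Normal ℚ ↥F _ _ F.algebra')
    {A : ValuationSubring Qbar} {φ : GQ} {q : ℕ} (hq : q.Prime) (hA : A.LiesOverPrime q)
    (hφ : A.IsFrobeniusAt φ q) :
    IsArithFrobAt ℤ (restrictRat F h φ) (primeUnder F A) := by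
  haveI : Fact q.Prime := ⟨hq⟩
  intro x
  have hc : Nat.card (ℤ ⧸ (primeUnder F A).under ℤ) = q :=
    Frob.natCard_int_quotient_under q (natCast_mem_primeUnder F hA)
  rw [hc, mem_primeUnder_iff]
  have h1 := valuation_frobenius_sub_pow_lt_one hφ (integersToValuationSubring F A x).2
  convert h1 using 2
  simp only [integersToValuationSubring_coe]
  rw [← restrictRat_coe F h φ]
  rfl

lemma orderOf_restrictNormalHom_eq [Normal ℚ F] (h : @Normal ℚ ↥F _ _ F.algebra') (σ : GQ) :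
    orderOf (AlgEquiv.restrictNormalHom (F := ℚ) (K₁ := Qbar) F σ) =
      orderOf (restrictRat F h σ) := by
  rw [orderOf_eq_orderOf_iff]
  intro n
  rw [← map_pow, ← restrictRat_pow, restrictRat_eq_one_iff,
    IntermediateField.mem_fixingSubgroup_iff]
  constructor
  · intro h1 x hx
    have : algebraMap ↥F Qbar ((AlgEquiv.restrictNormalHom (F := ℚ) (K₁ := Qbar) ↥F (σ ^ n))
        ⟨x, hx⟩) = (σ ^ n) (algebraMap ↥F Qbar ⟨x, hx⟩) :=
      AlgEquiv.restrictNormal_commutes (σ ^ n) ↥F ⟨x, hx⟩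
    rw [h1] at this
    exact this.symm
  · intro h1
    ext x
    have : algebraMap ↥F Qbar ((AlgEquiv.restrictNormalHom (F := ℚ) (K₁ := Qbar) ↥F (σ ^ n))
        x) = (σ ^ n) (algebraMap ↥F Qbar x) :=
      AlgEquiv.restrictNormal_commutes (σ ^ n) ↥F x
    rw [AlgEquiv.one_apply]
    exact this.trans (h1 x x.2)

lemma coprime_of_orderOf_pow_eq {G : Type*} [Group G] [Finite G] (x : G) (a : ℕ)
    (h : orderOf (x ^ a) = orderOf x) : a.Coprime (orderOf x) := by
  have hpos : 0 < orderOf x := orderOf_pos x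
  rw [orderOf_pow] at h
  have hdvd : Nat.gcd (orderOf x) a ∣ orderOf x := Nat.gcd_dvd_left _ _
  have h2 := Nat.div_mul_cancel hdvd
  rw [h] at h2
  have h3 : Nat.gcd (orderOf x) a = 1 := by
    have : orderOf x * Nat.gcd (orderOf x) a = orderOf x * 1 := by rw [h2, mul_one]
    exact Nat.eq_of_mul_eq_mul_left hpos this
  rw [Nat.Coprime, Nat.gcd_comm]
  exact h3

/-- **Frobenius density theorem, existence form** (division-class Chebotarev). -/
theorem exists_frobenius_generating (L : IntermediateField ℚ (AlgebraicClosure ℚ))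
    [FiniteDimensional ℚ L] [Normal ℚ L]
    (σ : AlgebraicClosure ℚ ≃ₐ[ℚ] AlgebraicClosure ℚ) (T : Finset ℕ) :
    ∃ l : ℕ, l.Prime ∧ l ∉ T ∧ ∃ (P : ValuationSubring (AlgebraicClosure ℚ))
      (φ : AlgebraicClosure ℚ ≃ₐ[ℚ] AlgebraicClosure ℚ),
      P.LiesOverPrime l ∧ P.IsFrobeniusAt φ l ∧
      (∀ τ ∈ P.inertiaSubgroupIn ℚ, ∀ x ∈ L, τ x = x) ∧
      ∃ a : ℕ, a.Coprime (orderOf (AlgEquiv.restrictNormalHom (F := ℚ)
        (K₁ := AlgebraicClosure ℚ) L σ)) ∧ ∀ x ∈ L, φ x = (σ ^ a) x := by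
  have hN : @Normal ℚ ↥L _ _ L.algebra' := by
    rw [algebra'_eq_toRatAlgebra]; infer_instance
  haveI : NumberField ↥L := NumberField.of_module_finite ℚ ↥L
  haveI : IsGalois ℚ ↥L := ⟨⟩
  set σ₀ := restrictRat L hN σ with hσ₀
  obtain ⟨q, hq, hqT, P, hPp, hqP, hin, hstab⟩ :=
    exists_prime_stabilizer_eq_zpowers (L := ↥L) (G := ↥L ≃ₐ[ℚ] ↥L) σ₀ T
  haveI := hPp
  haveI : Fact q.Prime := ⟨hq⟩
  obtain ⟨φ₀, hφ₀, hstab'⟩ := Frob.exists_isArithFrobAt_zpowers q hqP hin
  have hP0 : P ≠ ⊥ := by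
    rintro rfl
    rw [Ideal.mem_bot] at hqP
    exact hq.ne_zero (by exact_mod_cast hqP)
  obtain ⟨A, hA⟩ := exists_primeUnder_eq L P hP0
  have hAq : A.LiesOverPrime q := liesOverPrime_of_natCast_mem_primeUnder L (hA ▸ hqP)
  obtain ⟨φ, hφ⟩ := Fermat.Agent.Lib.Helper6.exists_isFrobeniusAt A hq hAq
  have hφF : restrictRat L hN φ = φ₀ := by
    have h1 := isArithFrobAt_restrictRat L hN hq hAq hφ
    rw [hA] at h1
    have h2 := IsArithFrobAt.mul_inv_mem_inertia h1 hφ₀
    rw [hin, Subgroup.mem_bot] at h2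
    exact mul_inv_eq_one.mp h2
  have hmem : φ₀ ∈ Subgroup.zpowers σ₀ := by
    rw [← hstab, hstab']; exact Subgroup.mem_zpowers φ₀
  obtain ⟨a, ha⟩ : ∃ a : ℕ, σ₀ ^ a = φ₀ :=
    mem_powers_iff_mem_zpowers.mpr hmem
  have hord : orderOf (σ₀ ^ a) = orderOf σ₀ := by
    rw [ha, ← Nat.card_zpowers, ← Nat.card_zpowers, ← hstab', hstab]
  refine ⟨q, hq, hqT, A, φ, hAq, hφ, ?_, a, ?_, ?_⟩
  · intro τ hτ x hx
    have h1 := restrictRat_mem_inertia L hN A hτ
    rw [hA, hin, Subgroup.mem_bot, restrictRat_eq_one_iff] at h1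
    exact (IntermediateField.mem_fixingSubgroup_iff L τ).mp h1 x hx
  · rw [orderOf_restrictNormalHom_eq L hN σ]
    exact coprime_of_orderOf_pow_eq σ₀ a hord
  · intro x hx
    have h1 : restrictRat L hN φ = restrictRat L hN (σ ^ a) := by
      rw [hφF, ← ha, restrictRat_pow]
    have h2 := congrArg (fun f : ↥L ≃ₐ[ℚ] ↥L => ((f ⟨x, hx⟩ : ↥L) : Qbar)) h1
    simpa only [restrictRat_coe] using h2

end Fermat.Agent.FrobDensity
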